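/-
S56 [GW-EC] sub-cell [EC-H3-loc], Part B (helper15; prefix `s56eh_`).

Enough plain levels: for every plain level `a` and every `n > 0` there is a plain level `b ≥ a`
whose local degree `|D_q(b)|` is divisible by `n` (unramified extensions of `a.L·ℚ_q` + Krasner).
-/
import Fermat.Agent.S56.GW.Dual.Inv.Main
import Fermat.Agent.S55.LocalCF.Seam

set_option autoImplicit false

open CategoryTheory groupCohomology ExtCitation

namespace Fermat.Agent.S56

open Fermat.Agent.S55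

local notation "Qbar" => AlgebraicClosure ℚ
local notation "GQ" => (AlgebraicClosure ℚ ≃ₐ[ℚ] AlgebraicClosure ℚ)

noncomputable section

variable (q : Nat.Primes)

/-- An element fixed by `Fix(b.L) ∩ G_q` lies in `b.L·ℚ_q`. -/
theorem s56eh_mem_Lq_of_fixed (b : s56gd_Fld) (x : PadicAlgCl (q : ℕ))
    (h : ∀ τ : PadicAlgCl (q : ℕ) ≃ₐ[ℚ_[(q : ℕ)]] PadicAlgCl (q : ℕ),
      localGaloisToGlobal (q : ℕ) τ ∈ b.L.fixingSubgroup → τ x = x) :
    x ∈ il_Lq (q : ℕ) b.L := by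
  rw [il_mem_Lq_iff]
  intro τ hτ
  refine h τ ?_
  exact (s56gdi_q_eq_one_iff b (localGaloisToGlobal (q : ℕ) τ)).1 hτ

/-- **Enough plain levels.** -/
theorem s56eh_exists_big (a : s56gd_Fld) (n : ℕ) (hn : 0 < n) :
    ∃ b : s56gd_Fld, a ≤ b ∧ n ∣ Nat.card ↥(s56gdi_D q b) := by
  have : IsGalois ℚ_[(q : ℕ)] ↥(il_Lq (q : ℕ) a.L) := ⟨⟩
  obtain ⟨L', -, hfd, hgal, hdvd⟩ := lq_exists_unram_ext (il_Lq (q : ℕ) a.L) n hn
  have := hfd
  have := hgal
  -- a primitive element of `L'`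
  obtain ⟨α, hα⟩ := Field.exists_primitive_element ℚ_[(q : ℕ)] ↥L'
  obtain ⟨F, hF, hfix⟩ := tl_exists_level_fixing (q : ℕ) (α : PadicAlgCl (q : ℕ))
  have := hF
  refine ⟨(s56gdi_closure F).sup a, s56gd_Fld.le_sup_right _ _, ?_⟩
  set b : s56gd_Fld := (s56gdi_closure F).sup a with hb
  -- `L' ≤ b.L·ℚ_q`
  have hαmem : (α : PadicAlgCl (q : ℕ)) ∈ il_Lq (q : ℕ) b.L := by
    apply s56eh_mem_Lq_of_fixed
    intro τ hτ
    refine hfix τ ?_
    exact IntermediateField.fixingSubgroup_antitone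
      ((s56gdi_le_closure F).trans (s56gd_Fld.le_sup_left _ _)) hτ
  have hL' : L' ≤ il_Lq (q : ℕ) b.L := by
    have h1 : L' = IntermediateField.adjoin ℚ_[(q : ℕ)] {(α : PadicAlgCl (q : ℕ))} := by
      have h2 := congrArg (IntermediateField.map L'.val) hα
      rw [IntermediateField.adjoin_map, Set.image_singleton] at h2
      rw [show (L'.val α : PadicAlgCl (q : ℕ)) = (α : PadicAlgCl (q : ℕ)) from rfl] at h2
      rw [h2]
      ext y
      simp
    rw [h1, IntermediateField.adjoin_simple_le_iff]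
    exact hαmem
  -- cardinalities
  have hc1 : Nat.card ↥(s56gdi_D q b) =
      Module.finrank ℚ_[(q : ℕ)] ↥(il_Lq (q : ℕ) b.L) := by
    have : IsGalois ℚ_[(q : ℕ)] ↥(il_Lq (q : ℕ) b.L) := ⟨⟩
    rw [← Nat.card_congr (il_galEquiv (q : ℕ) b.L).toEquiv, IsGalois.card_aut_eq_finrank]
  have hc2 : (lq_inertia L').index ∣ Module.finrank ℚ_[(q : ℕ)] ↥L' := by
    rw [← IsGalois.card_aut_eq_finrank]
    exact Subgroup.index_dvd_card _
  rw [hc1]
  exact hdvd.trans (hc2.trans (IntermediateField.finrank_dvd_of_le_right hL'))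

end

end Fermat.Agent.S56
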