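/-
S56 [GW-EC] sub-cell [EC-H3-loc], Part B (helper15; prefix `s56eh_`).

`p`-divisibility of the `p`-primary part of `H²(G_q, (PadicAlgCl q)ˣ)` (level cohomology):
abstract form for two `p`-class modules with compatible invariants, then the local statement via
`s56eh_exists_big`.
-/
import Fermat.Agent.S56.GW.EC.H3Loc.Ext
import Fermat.Agent.S55.Recip.ConjRes
import Fermat.Agent.S55.Recip.ClassInv

set_option autoImplicit false

open CategoryTheory groupCohomology ExtCitation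

namespace Fermat.Agent.S56

open Fermat.Agent.S55

noncomputable section

section abstract

variable {p : ℕ} [hp : Fact p.Prime]
  {Γ : Type} [Group Γ] [Finite Γ] {C : Rep.{0} ℤ Γ} (P : PClassModule p C)
  {Γ₁ : Type} [Group Γ₁] [Finite Γ₁] {C₁ : Rep.{0} ℤ Γ₁} (P₁ : PClassModule p C₁)

omit hp [Finite Γ] in
/-- the top invariant is injective on `p`-primary classes. -/
theorem s56eh_invTop_inj (z : groupCohomology C 2) (hz : tt_IsPPrimary p z)
    (h : P.invTop z = 0) : z = 0 := by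
  have h1 := P.inv_inj ⊤ ((tt_resMap ⊤ C 2).hom z)
    (tt_isPPrimary_map (tt_resMap ⊤ C 2).hom.toAddMonoidHom hz) h
  exact (rc_ci_resTop_bijective C 2).1 (by rw [h1, map_zero])

/-- the top invariant of a `p`-primary class is killed by the `p`-part of `|Γ|`. -/
theorem s56eh_ordProj_smul_invTop (z : groupCohomology C 2) (hz : tt_IsPPrimary p z) :
    ordProj[p] (Nat.card Γ) • P.invTop z = 0 := by
  have h1 := rc_pcm_ordProj_smul_inv P ⊤ ((tt_resMap ⊤ C 2).hom z)
    (tt_isPPrimary_map (tt_resMap ⊤ C 2).hom.toAddMonoidHom hz)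
  have h2 : Nat.card ↥(⊤ : Subgroup Γ) = Nat.card Γ :=
    Nat.card_congr Subgroup.topEquiv.toEquiv
  rw [h2] at h1
  exact h1

/-- **Abstract `p`-divisibility**: if the invariants of `P` and `P₁` are compatible along `T` and
`p · |Γ|_p` divides `|Γ₁|`, then `T w` is divisible by `p` for every `p`-primary `w`. -/
theorem s56eh_div_abs (T : groupCohomology C 2 →+ groupCohomology C₁ 2)
    (hT : ∀ w, tt_IsPPrimary p w → P₁.invTop (T w) = P.invTop w)
    (hdvd : p * ordProj[p] (Nat.card Γ) ∣ Nat.card Γ₁)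
    (w : groupCohomology C 2) (hw : tt_IsPPrimary p w) :
    ∃ w₁ : groupCohomology C₁ 2, tt_IsPPrimary p w₁ ∧ T w = p • w₁ := by
  have hpp : p.Prime := hp.out
  obtain ⟨u, hu, hord⟩ := P₁.inv_gen
  set N₁ := ordProj[p] (Nat.card Γ₁) with hN₁
  set N := ordProj[p] (Nat.card Γ) with hN
  have hN₁pos : 0 < N₁ := Nat.ordProj_pos _ _
  have hNpos : 0 < N := Nat.ordProj_pos _ _
  -- `p * N ∣ N₁`
  have hpN : p * N ∣ N₁ := by
    have hc₁ : Nat.card Γ₁ ≠ 0 := Nat.card_pos.ne'
    have h1 : p * N = p ^ ((Nat.card Γ).factorization p + 1) := by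
      rw [hN, pow_succ, mul_comm]
    rw [h1] at hdvd ⊢
    exact pow_dvd_pow p ((hpp.pow_dvd_iff_le_factorization hc₁).1 hdvd)
  obtain ⟨K, hK⟩ := hpN
  have hKpos : 0 < K := by
    rcases Nat.eq_zero_or_pos K with h | h
    · rw [h, mul_zero] at hK
      omega
    · exact h
  set t := P₁.invTop u with ht
  have hordt : addOrderOf t = N₁ := hord
  set v := P.invTop w with hv
  have hNv : N • v = 0 := s56eh_ordProj_smul_invTop P w hw
  have hN₁v : N₁ • v = 0 := by
    have e : p * N * K = (p * K) * N := by ring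
    rw [hK, e, mul_smul, hNv, smul_zero]
  obtain ⟨m, hm⟩ := rc_qz_mem_zmultiples hN₁pos hordt hN₁v
  -- `p ∣ m`
  have hpm : p ∣ m := by
    have h1 : (N * K * m) • t = 0 := by
      rw [mul_assoc, mul_smul, mul_smul, ← hm, smul_comm, hNv, smul_zero]
    have h2 : N₁ ∣ N * K * m := by
      rw [← hordt]
      exact addOrderOf_dvd_iff_nsmul_eq_zero.2 h1
    rw [hK] at h2
    have h3 : N * K * p ∣ N * K * m := by
      have : p * N * K = N * K * p := by ring
      rw [← this]
      exact h2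
    exact Nat.dvd_of_mul_dvd_mul_left (Nat.mul_pos hNpos hKpos) h3
  obtain ⟨m', hm'⟩ := hpm
  refine ⟨m' • u, tt_isPPrimary_nsmul m' hu, ?_⟩
  have hTw : tt_IsPPrimary p (T w) := tt_isPPrimary_map T hw
  have hd : tt_IsPPrimary p (T w - p • (m' • u)) := by
    have h1 : tt_IsPPrimary p (p • (m' • u)) :=
      tt_isPPrimary_nsmul p (tt_isPPrimary_nsmul m' hu)
    obtain ⟨a, ha⟩ := hTw
    obtain ⟨b, hb⟩ := h1
    refine ⟨a + b, ?_⟩
    have e1 : p ^ (a + b) • T w = 0 := by rw [pow_add, mul_comm, mul_smul, ha, smul_zero]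
    have e2 : p ^ (a + b) • (p • (m' • u)) = 0 := by rw [pow_add, mul_smul, hb, smul_zero]
    rw [smul_sub, e1, e2, sub_zero]
  have hz : P₁.invTop (T w - p • (m' • u)) = 0 := by
    rw [map_sub, hT w hw, map_nsmul, map_nsmul, ← ht, ← hv, hm, hm', mul_smul, sub_self]
  exact sub_eq_zero.1 (s56eh_invTop_inj P₁ _ hd hz)

end abstract

section loc

variable (p : ℕ) [Fact p.Prime] (q : Nat.Primes)

/-- **`Br(ℚ_q)(p)` is `p`-divisible** (level cohomology of `G_q` with values in
`(PadicAlgCl q)ˣ`). -/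
theorem s56eh_top_div (x : lvH2 (tl_levelsLoc q) (tl_locUnits q)) (hx : tt_IsPPrimary p x) :
    ∃ x₁ : lvH2 (tl_levelsLoc q) (tl_locUnits q), x = p • x₁ := by
  obtain ⟨a, w, -, hw, rfl⟩ := s56gdi_exists_rep p q x hx s56gdi_bot
  obtain ⟨b, hab, hdvd⟩ := s56eh_exists_big q a (p * ordProj[p] (Nat.card ↥(s56gdi_D q a)))
    (Nat.mul_pos (Fact.out : p.Prime).pos (Nat.ordProj_pos _ _))
  obtain ⟨w₁, -, hw₁⟩ := s56eh_div_abs (ils_Pq p q a.L) (ils_Pq p q b.L) (s56gdi_trans q hab)
    (fun w hw => s56gdi_invTop_trans q hab p w hw) hdvd w hw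
  refine ⟨s56gdi_infl q b w₁, ?_⟩
  rw [← s56gdi_infl_trans q hab w, hw₁, map_nsmul]

end loc

end

end Fermat.Agent.S56
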