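/-
S56 [GW-EC] sub-cell [EC-H3-loc], Part A (helper15; prefix `s56eh_`).

Explicit degree-3 dictionary for Mathlib's `groupCohomology A 3`: written-out 3-cocycles
`G × G × G → A`, their classes, and "class = 0 ↔ coboundary of a 2-cochain" (`d₂₃`).
-/
import Mathlib

set_option autoImplicit false

namespace Fermat.Agent.S56

open CategoryTheory groupCohomology

universe u

section general

variable {k G : Type u} [CommRing k] [Group G]

/-- general degree: the class of a cocycle vanishes iff it is a coboundary. -/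
theorem s56eh_π_eq_zero_iff (A : Rep.{u} k G) (n : ℕ) (x : cocycles A (n + 1)) :
    π A (n + 1) x = 0 ↔
      ∃ y : (inhomogeneousCochains A).X n,
        (inhomogeneousCochains A).d n (n + 1) y = iCocycles A (n + 1) x := by
  have hprev : (ComplexShape.up ℕ).prev (n + 1) = n := CochainComplex.prev_nat_succ n
  let S : ShortComplex (ModuleCat k) :=
    ShortComplex.mk ((inhomogeneousCochains A).toCycles n (n + 1))
      ((inhomogeneousCochains A).homologyπ (n + 1))
      ((inhomogeneousCochains A).toCycles_comp_homologyπ n (n + 1))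
  have hS : S.Exact :=
    ShortComplex.exact_of_g_is_cokernel S
      ((inhomogeneousCochains A).homologyIsCokernel n (n + 1) hprev)
  have hinj : Function.Injective (iCocycles A (n + 1)) :=
    (ModuleCat.mono_iff_injective _).1 inferInstance
  have h1 := (inhomogeneousCochains A).toCycles_i n (n + 1)
  have h2 : ∀ y, iCocycles A (n + 1) ((inhomogeneousCochains A).toCycles n (n + 1) y) =
      (inhomogeneousCochains A).d n (n + 1) y := fun y => by
    have := congrArg (fun f => f.hom y) h1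
    simpa only [ModuleCat.hom_comp, LinearMap.comp_apply] using this
  constructor
  · intro h
    obtain ⟨y, hy⟩ := (ShortComplex.moduleCat_exact_iff S).1 hS x h
    refine ⟨y, ?_⟩
    rw [← h2]
    exact congrArg _ hy
  · rintro ⟨y, hy⟩
    have h3 : (inhomogeneousCochains A).toCycles n (n + 1) y = x := by
      apply hinj
      exact (h2 y).trans hy
    rw [← h3]
    exact ShortComplex.moduleCat_zero_apply S y

end general

section three

variable {k G : Type} [CommRing k] [Group G]

/-- a function is a 3-cocycle (written out) -/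
def s56eh_IsZ3 (A : Rep.{0} k G) (z : G × G × G → A.V) : Prop :=
  ∀ g h j l : G, A.ρ g (z (h, j, l)) - z (g * h, j, l) + z (g, h * j, l) - z (g, h, j * l)
    + z (g, h, j) = 0

/-- the coboundary of a 2-cochain (written out; Mathlib's `d₂₃`). -/
def s56eh_d2 (A : Rep.{0} k G) (w : G × G → A.V) : G × G × G → A.V :=
  fun q => A.ρ q.1 (w q.2) - w (q.1 * q.2.1, q.2.2) + w (q.1, q.2.1 * q.2.2) - w (q.1, q.2.1)

theorem s56eh_d2_eq (A : Rep.{0} k G) (w : G × G → A.V) : s56eh_d2 A w = (d₂₃ A).hom w := rfl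

theorem s56eh_d2_apply (A : Rep.{0} k G) (w : G × G → A.V) (g h j : G) :
    s56eh_d2 A w (g, h, j) = A.ρ g (w (h, j)) - w (g * h, j) + w (g, h * j) - w (g, h) := rfl

/-- the inhomogeneous 3-cochain of a function on `G × G × G`. -/
def s56eh_toCochain (A : Rep.{0} k G) (z : G × G × G → A.V) : (Fin 3 → G) → A.V :=
  fun v => z (v 0, v 1, v 2)

theorem s56eh_toCochain_injective (A : Rep.{0} k G) :
    Function.Injective (s56eh_toCochain A) := by
  intro z z' h
  funext ⟨g, h', j⟩
  have := congrFun h ![g, h', j]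
  simpa [s56eh_toCochain] using this

theorem s56eh_toCochain_eq (A : Rep.{0} k G) (z : G × G × G → A.V) :
    s56eh_toCochain A z = (cochainsIso₃ A).inv z := rfl

theorem s56eh_d3_apply (A : Rep.{0} k G) (z : G × G × G → A.V) (v : Fin 4 → G) :
    (inhomogeneousCochains.d A 3).hom (s56eh_toCochain A z) v =
      A.ρ (v 0) (z (v 1, v 2, v 3)) - z (v 0 * v 1, v 2, v 3) + z (v 0, v 1 * v 2, v 3)
        - z (v 0, v 1, v 2 * v 3) + z (v 0, v 1, v 2) := by
  rw [inhomogeneousCochains.d_hom_apply]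
  rw [Fin.sum_univ_four]
  simp only [s56eh_toCochain]
  simp [Fin.contractNth, pow_succ]
  abel

theorem s56eh_isZ3_iff (A : Rep.{0} k G) (z : G × G × G → A.V) :
    s56eh_IsZ3 A z ↔ (inhomogeneousCochains.d A 3).hom (s56eh_toCochain A z) = 0 := by
  constructor
  · intro h
    funext v
    rw [s56eh_d3_apply]
    exact h (v 0) (v 1) (v 2) (v 3)
  · intro h g h' j l
    have := congrFun h ![g, h', j, l]
    rw [s56eh_d3_apply] at this
    exact this

/-- the class of a written-out 3-cocycle -/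
noncomputable def s56eh_cl3 (A : Rep.{0} k G) (z : G × G × G → A.V) (hz : s56eh_IsZ3 A z) :
    groupCohomology A 3 :=
  π A 3 (cocyclesMk (s56eh_toCochain A z) ((s56eh_isZ3_iff A z).1 hz))

theorem s56eh_cl3_eq_zero_iff (A : Rep.{0} k G) (z : G × G × G → A.V) (hz : s56eh_IsZ3 A z) :
    s56eh_cl3 A z hz = 0 ↔ ∃ w : G × G → A.V, z = s56eh_d2 A w := by
  rw [s56eh_cl3, s56eh_π_eq_zero_iff A 2, iCocycles_mk]
  have hsq : ∀ w : G × G → A.V,
      (inhomogeneousCochains A).d 2 3 ((cochainsIso₂ A).inv w) =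
        s56eh_toCochain A (s56eh_d2 A w) := by
    intro w
    have := congrArg (fun f => f.hom w) (eq_d₂₃_comp_inv A)
    exact this
  constructor
  · rintro ⟨y, hy⟩
    refine ⟨(cochainsIso₂ A).hom y, ?_⟩
    apply s56eh_toCochain_injective A
    rw [← hsq, ← hy]
    congr 1
    exact (congrArg (fun f => f.hom y) (cochainsIso₂ A).hom_inv_id).symm
  · rintro ⟨w, rfl⟩
    exact ⟨(cochainsIso₂ A).inv w, hsq w⟩

theorem s56eh_isZ3_nsmul (A : Rep.{0} k G) (m : ℕ) {z : G × G × G → A.V}
    (hz : s56eh_IsZ3 A z) : s56eh_IsZ3 A (m • z) := by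
  intro g h j l
  simp only [Pi.smul_apply, map_nsmul]
  rw [← smul_sub, ← smul_add, ← smul_sub, ← smul_add, hz g h j l, smul_zero]

theorem s56eh_isZ3_d2 (A : Rep.{0} k G) (w : G × G → A.V) : s56eh_IsZ3 A (s56eh_d2 A w) := by
  intro g h j l
  simp only [s56eh_d2_apply, map_sub, map_add, ← Module.End.mul_apply, ← map_mul, mul_assoc]
  abel

theorem s56eh_cl3_nsmul (A : Rep.{0} k G) (m : ℕ) {z : G × G × G → A.V}
    (hz : s56eh_IsZ3 A z) :
    s56eh_cl3 A (m • z) (s56eh_isZ3_nsmul A m hz) = m • s56eh_cl3 A z hz := by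
  rw [s56eh_cl3, s56eh_cl3, ← map_nsmul]
  congr 1
  apply (ModuleCat.mono_iff_injective (iCocycles A 3)).1 inferInstance
  rw [map_nsmul, iCocycles_mk, iCocycles_mk]
  rfl

/-- `p`-primary vanishing of `H³` in explicit form. -/
theorem s56eh_H3_explicit_prime (A : Rep.{0} k G) (p : ℕ)
    (h : ∀ x : groupCohomology A 3, ∃ m : ℕ, ¬ p ∣ m ∧ m • x = 0)
    (z : G × G × G → A.V) (hz : s56eh_IsZ3 A z) :
    ∃ m : ℕ, ¬ p ∣ m ∧ ∃ w : G × G → A.V, m • z = s56eh_d2 A w := by
  obtain ⟨m, hm, h0⟩ := h (s56eh_cl3 A z hz)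
  refine ⟨m, hm, ?_⟩
  rw [← s56eh_cl3_nsmul] at h0
  exact (s56eh_cl3_eq_zero_iff A _ _).mp h0

end three

end Fermat.Agent.S56
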