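/-
S56 [GW-EC] sub-cell [EC-H3-loc], Part A (helper15; prefix `s56eh_`).

**Tate's theorem in degree 3** for a `p`-class module: `H³(Γ, C)` has no `p`-primary torsion,
in explicit cocycle form.  Proof: the splitting module `C(σ)` of a fundamental class has
`p`-primary-trivial cohomology in all positive degrees (S55: `tn_split_isZero` +
`fg_hom_pPrimary_vanish` with `Y = ℤ`), `H²(Γ, Fun(Γ, ℤ)) = 0` and `Hom(Γ, ℤ) = 0`; chase through
`0 → C → C(σ) → I_Γ → 0` on explicit cochains.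
-/
import Fermat.Agent.S56.GW.EC.H3Loc.Fin3
import Fermat.Agent.S55.Tate.TateNakayama
import Fermat.Agent.S55.Tate.Reciprocity
import Fermat.Agent.S55.Tate.ClassModuleRestrict

set_option autoImplicit false

namespace Fermat.Agent.S56

open CategoryTheory groupCohomology Fermat.Agent.S55

noncomputable section

section maps

variable {k G : Type} [CommRing k] [Group G]

theorem s56eh_d2_map {A B : Rep.{0} k G} (φ : A ⟶ B) (w : G × G → A.V) :
    (fun q => φ.hom (s56eh_d2 A w q)) = s56eh_d2 B (fun q => φ.hom (w q)) := by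
  funext ⟨g, h, j⟩
  simp only [s56eh_d2_apply, map_sub, map_add]
  rw [Rep.hom_comm_apply φ g]

theorem s56eh_isZ3_map {A B : Rep.{0} k G} (φ : A ⟶ B) {z : G × G × G → A.V}
    (hz : s56eh_IsZ3 A z) : s56eh_IsZ3 B (fun q => φ.hom (z q)) := by
  intro g h j l
  have := congrArg φ.hom (hz g h j l)
  simp only [map_sub, map_add, map_zero] at this
  rw [Rep.hom_comm_apply φ g] at this
  exact this

theorem s56eh_d2_d1 (A : Rep.{0} k G) (t : G → A.V) : s56eh_d2 A (te_d1 A t) = 0 := by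
  rw [s56eh_d2_eq, te_d1_eq]
  exact d₁₂_comp_d₂₃_apply A t

theorem s56eh_d2_add (A : Rep.{0} k G) (w w' : G × G → A.V) :
    s56eh_d2 A (w + w') = s56eh_d2 A w + s56eh_d2 A w' := by
  rw [s56eh_d2_eq, s56eh_d2_eq, s56eh_d2_eq, map_add]

theorem s56eh_d2_sub (A : Rep.{0} k G) (w w' : G × G → A.V) :
    s56eh_d2 A (w - w') = s56eh_d2 A w - s56eh_d2 A w' := by
  rw [s56eh_d2_eq, s56eh_d2_eq, s56eh_d2_eq, map_sub]

theorem s56eh_d2_zsmul (A : Rep.{0} k G) (a : ℤ) (w : G × G → A.V) :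
    s56eh_d2 A (a • w) = a • s56eh_d2 A w := by
  rw [s56eh_d2_eq, s56eh_d2_eq, map_zsmul]

/-- `H²(G, Fun(G, k)) = 0`, explicitly (contracting homotopy `t g x = w (x, g) 1`). -/
theorem s56eh_fun_H2 (w : G × G → (G → k))
    (hw : s56eh_d2 (Rep.of (fg_funRep k G k)) w = 0) :
    ∃ t : G → (G → k), w = te_d1 (Rep.of (fg_funRep k G k)) t := by
  refine ⟨fun g x => w (x, g) 1, ?_⟩
  funext ⟨g, h⟩
  funext x
  have h1 : s56eh_d2 (Rep.of (fg_funRep k G k)) w (x, g, h) 1 = (0 : k) :=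
    congrFun (congrFun hw (x, g, h)) 1
  rw [s56eh_d2_apply] at h1
  simp only [Pi.sub_apply, Pi.add_apply] at h1
  have h2 : ((Rep.of (fg_funRep k G k)).ρ x (w (g, h))) 1 = w (g, h) x := by
    show fg_funRep k G k x (w (g, h)) 1 = _
    rw [fg_funRep_apply, one_mul]
  rw [h2] at h1
  show w (g, h) x = (fg_funRep k G k g (fun x => w (x, h) 1) - (fun x => w (x, g * h) 1)
    + fun x => w (x, g) 1) x
  simp only [Pi.sub_apply, Pi.add_apply, fg_funRep_apply]
  linear_combination h1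

end maps

section vanish

variable {p : ℕ} [Fact p.Prime] {Γ : Type} [Group Γ] [Fintype Γ]

/-- the additive map `a ↦ (n ↦ n • a)`. -/
def s56eh_evInvAdd (A : Rep.{0} ℤ Γ) : A.V →+ (tt_hom (rcp_Z Γ) A).V where
  toFun a := tt_linOfAdd (A := rcp_Z Γ) (B := A) (zmultiplesHom A.V a)
  map_zero' := by
    refine DFunLike.ext _ _ (fun n => ?_)
    show (zmultiplesHom A.V (0 : A.V)) n = 0
    simp
  map_add' a b := by
    refine DFunLike.ext _ _ (fun n => ?_)
    show (zmultiplesHom A.V (a + b)) n = (zmultiplesHom A.V a) n + (zmultiplesHom A.V b) n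
    simp

omit [Fintype Γ] in
theorem s56eh_evInvAdd_apply (A : Rep.{0} ℤ Γ) (a : A.V) (n : ℤ) :
    (s56eh_evInvAdd A a : (rcp_Z Γ).V →ₗ[ℤ] A.V) n = n • a := rfl

/-- the inverse of evaluation at `1 : ℤ`. -/
def s56eh_evInv (A : Rep.{0} ℤ Γ) : A ⟶ tt_hom (rcp_Z Γ) A :=
  tt_homOfAdd (A := A) (B := tt_hom (rcp_Z Γ) A) (s56eh_evInvAdd A) (fun g a => by
    refine DFunLike.ext _ _ (fun n => ?_)
    rw [tt_hom_ρ_apply]
    have h1 : (rcp_Z Γ).ρ g⁻¹ n = n := rfl
    rw [h1]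
    show n • A.ρ g a = A.ρ g (n • a)
    rw [map_zsmul])

omit [Fintype Γ] in
theorem s56eh_evInv_ev (A : Rep.{0} ℤ Γ) :
    s56eh_evInv A ≫ tt_ev A (1 : ℤ) (fun _ => rfl) = 𝟙 A := by
  apply Rep.hom_ext
  refine DFunLike.ext _ _ (fun a => ?_)
  show (s56eh_evInvAdd A a : (rcp_Z Γ).V →ₗ[ℤ] A.V) (1 : ℤ) = a
  rw [s56eh_evInvAdd_apply, one_smul]

/-- **`p`-primary vanishing of `Hⁿ(Γ, A)`, `n ≥ 1`**, when `H¹ = H² = 0` on all `p`-subgroups. -/
theorem s56eh_pPrimary_vanish (A : Rep.{0} ℤ Γ)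
    (hA : ∀ H : Subgroup Γ, IsPGroup p H →
      Limits.IsZero (groupCohomology (Rep.res H.subtype A) 1) ∧
      Limits.IsZero (groupCohomology (Rep.res H.subtype A) 2))
    (n : ℕ) (hn : 0 < n) (x : groupCohomology A n) : ∃ m : ℕ, ¬ p ∣ m ∧ m • x = 0 := by
  obtain ⟨m, hm, h0⟩ := fg_hom_pPrimary_vanish A hA (rcp_Z Γ) rcp_isLattice_Z n hn
    ((groupCohomology.map (MonoidHom.id Γ) (s56eh_evInv A) n).hom x)
  refine ⟨m, hm, ?_⟩
  have h1 := map_id_comp (s56eh_evInv A) (tt_ev A (1 : ℤ) (fun _ => rfl)) n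
  have h1' : groupCohomology.map (MonoidHom.id Γ)
      (s56eh_evInv A ≫ tt_ev A (1 : ℤ) (fun _ => rfl)) n = 𝟙 (groupCohomology A n) := by
    rw [s56eh_evInv_ev A]
    exact map_id n
  rw [h1'] at h1
  have h2 : x = (groupCohomology.map (MonoidHom.id Γ) (tt_ev A (1 : ℤ) (fun _ => rfl)) n).hom
      ((groupCohomology.map (MonoidHom.id Γ) (s56eh_evInv A) n).hom x) := by
    have := congrArg (fun f => f.hom x) h1
    exact this
  rw [h2, ← map_nsmul, h0, map_zero]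

end vanish

section main

variable {Γ : Type} [Group Γ] [Fintype Γ] {p : ℕ} [Fact p.Prime] {C : Rep.{0} ℤ Γ}

/-- **Tate's theorem in degree 3, explicit form**: a 3-cocycle of a `p`-class module which is
killed by a power of `p` up to coboundaries is a coboundary. -/
theorem s56eh_H3_vanish (P : PClassModule p C) (z : Γ × Γ × Γ → C.V) (hz : s56eh_IsZ3 C z)
    (k : ℕ) (w : Γ × Γ → C.V) (h : p ^ k • z = s56eh_d2 C w) :
    ∃ w' : Γ × Γ → C.V, z = s56eh_d2 C w' := by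
  classical
  have hp : p.Prime := Fact.out
  obtain ⟨σ, hu, hord⟩ := tn_exists_fund P
  set A := sp_split C σ with hAdef
  set F : Rep.{0} ℤ Γ := Rep.of (fg_funRep ℤ Γ ℤ) with hF
  have hA := tn_split_isZero P σ hu hord
  -- the image of `z` in `C(σ)`
  have hy : s56eh_IsZ3 A (fun q => (sp_i C σ).hom (z q)) := s56eh_isZ3_map (sp_i C σ) hz
  obtain ⟨m, hm, v, hv⟩ := s56eh_H3_explicit_prime A p
    (fun x => s56eh_pPrimary_vanish A hA 3 (by norm_num) x) _ hy
  -- project to `Fun(Γ, ℤ)`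
  have hprv : s56eh_d2 F (fun q => (sp_pr C σ).hom (v q)) = 0 := by
    rw [← s56eh_d2_map (sp_pr C σ) v, ← hv]
    funext q
    show (sp_pr C σ).hom (m • (sp_i C σ).hom (z q)) = 0
    rw [map_nsmul, sp_i_apply, sp_pr_apply]
    simp
  obtain ⟨t, ht⟩ := s56eh_fun_H2 _ hprv
  -- `t` has values in the augmentation ideal
  have hεt : ∀ g : Γ, sp_eps ℤ Γ (t g) = 0 := by
    refine tn_hom_int_eq_zero (fun g => sp_eps ℤ Γ (t g)) (fun a b => ?_)
    have h1 := congrFun ht (a, b)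
    have h2 : sp_eps ℤ Γ ((sp_pr C σ).hom (v (a, b))) = 0 := by
      obtain ⟨c, x⟩ := v (a, b)
      rw [sp_pr_apply]
      exact x.2
    rw [h1] at h2
    show sp_eps ℤ Γ (t (a * b)) = sp_eps ℤ Γ (t a) + sp_eps ℤ Γ (t b)
    have h3 : te_d1 F t (a, b) = fg_funRep ℤ Γ ℤ a (t b) - t (a * b) + t a := rfl
    rw [h3, map_add, map_sub, sp_eps_funRep] at h2
    linarith
  -- correct `v`
  let t' : Γ → A.V := fun g => ((0 : C.V), (⟨t g, hεt g⟩ : sp_aug ℤ Γ))
  have hprt' : (fun g => (sp_pr C σ).hom (t' g)) = t := by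
    funext g
    exact sp_pr_apply C σ 0 ⟨t g, hεt g⟩
  let v' : Γ × Γ → A.V := v - te_d1 A t'
  have hv'2 : ∀ q, (sp_pr C σ).hom (v' q) = 0 := by
    intro q
    show (sp_pr C σ).hom (v q - te_d1 A t' q) = 0
    rw [map_sub, congrFun ht q, sub_eq_zero]
    have h1 : ∀ g h : Γ, (sp_pr C σ).hom (te_d1 A t' (g, h)) = te_d1 F t (g, h) := by
      intro g h
      show (sp_pr C σ).hom (A.ρ g (t' h) - t' (g * h) + t' g) =
        F.ρ g (t h) - t (g * h) + t g
      rw [map_add, map_sub, Rep.hom_comm_apply (sp_pr C σ) g]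
      rw [← hprt']
    obtain ⟨g, h⟩ := q
    exact (h1 g h).symm
  have hdv' : s56eh_d2 A v' = m • fun q => (sp_i C σ).hom (z q) := by
    show s56eh_d2 A (v - te_d1 A t') = _
    rw [s56eh_d2_sub, s56eh_d2_d1, sub_zero, hv]
  -- `v'` has values in `C`
  let w₁ : Γ × Γ → C.V := fun q => (v' q).1
  have hv'i : v' = fun q => (sp_i C σ).hom (w₁ q) := by
    funext q
    have h1 := hv'2 q
    rw [sp_i_apply]
    show v' q = (((v' q).1, 0) : C.V × sp_aug ℤ Γ)
    rcases hq : v' q with ⟨c, x⟩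
    rw [hq, sp_pr_apply] at h1
    refine Prod.ext rfl (Subtype.ext ?_)
    show x.1 = (0 : sp_aug ℤ Γ).1
    rw [h1]
    rfl
  have hw₁ : s56eh_d2 C w₁ = m • z := by
    have h1 : (fun q => (sp_i C σ).hom (s56eh_d2 C w₁ q)) =
        m • fun q => (sp_i C σ).hom (z q) := by
      rw [s56eh_d2_map (sp_i C σ) w₁, ← hv'i, hdv']
    funext q
    have h2 := congrFun h1 q
    have h3 : ((sp_i C σ).hom (s56eh_d2 C w₁ q)).1 = (m • (sp_i C σ).hom (z q)).1 :=
      congrArg Prod.fst h2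
    rw [sp_i_apply, sp_i_apply] at h3
    exact h3
  -- Bezout
  have hcop : IsCoprime ((p ^ k : ℕ) : ℤ) (m : ℤ) :=
    Nat.isCoprime_iff_coprime.2
      (Nat.Coprime.pow_left k ((Nat.Prime.coprime_iff_not_dvd hp).2 hm))
  obtain ⟨a, b, hab⟩ := hcop
  refine ⟨a • w + b • w₁, ?_⟩
  rw [s56eh_d2_add, s56eh_d2_zsmul, s56eh_d2_zsmul, ← h, hw₁]
  have h1 : z = (1 : ℤ) • z := (one_smul ℤ z).symm
  conv_lhs => rw [h1, ← hab]
  rw [add_smul, mul_smul, mul_smul, natCast_zsmul, natCast_zsmul]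

omit [Fintype Γ] in
/-- the same on every layer `H ≤ Γ`. -/
theorem s56eh_H3_vanish_layer [Finite Γ] (P : PClassModule p C) (H : Subgroup Γ)
    (z : H × H × H → C.V) (hz : s56eh_IsZ3 (tt_res H C) z)
    (k : ℕ) (w : H × H → C.V) (h : p ^ k • z = s56eh_d2 (tt_res H C) w) :
    ∃ w' : H × H → C.V, z = s56eh_d2 (tt_res H C) w' := by
  have : Fintype H := Fintype.ofFinite H
  exact s56eh_H3_vanish (P.restrict H) z hz k w h

end main

end

end Fermat.Agent.S56
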