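/-
S56 [GW-EC] sub-cell [EC-H3-loc], Part D (helper15; prefix `s56eh_`).

(K3) for the units `tl_locUnits q` over an open subgroup `U ≤ G_q`: a level-constant 3-cocycle `e`
such that `p • e` is a level-constant coboundary is itself a level-constant coboundary.
Descent to a finite layer `U.map (G_q → D_q(a))` of the `p`-class module `ils_Pq p q a.L`, where
`H³(H, C)(p) = 0` (`s56eh_H3_vanish_layer`).
-/
import Fermat.Agent.S56.GW.EC.H3Loc.Tate3
import Fermat.Agent.S56.GW.EC.H3Loc.Descent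
import Fermat.Agent.S56.GW.EC.H3Loc.Div
import Fermat.Agent.S56.GW.EC.Syl.Kummer

set_option autoImplicit false

open CategoryTheory groupCohomology ExtCitation

namespace Fermat.Agent.S56

open Fermat.Agent.S55

noncomputable section

section general

variable {G : Type*} [Group G] (L : LevelSys G) (X : Type*) [AddCommGroup X]
  [DistribMulAction G X]

/-- Smoothness restricts to subgroups. -/
lemma s56eh_isSmooth_comap (hX : L.IsSmooth X) (U : Subgroup G) :
    (L.comap U.subtype).IsSmooth X := by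
  intro x
  obtain ⟨V, hV, h⟩ := hX x
  exact ⟨V.comap U.subtype, ⟨V, hV, rfl⟩, fun u hu => h (u : G) hu⟩

end general

section loc

variable (q : Nat.Primes)

/-- Every level of `G_q` contains the kernel of `G_q → D_q(a)` for a plain level `a`, which can be
chosen above a given plain level. -/
lemma s56eh_exists_fld_le (a₀ : s56gd_Fld) {V : Subgroup (primeLocalGaloisGroup q)}
    (hV : V ∈ (tl_levelsLoc q).levels) :
    ∃ a : s56gd_Fld, a₀ ≤ a ∧ (s56gdi_Q q a).q.ker ≤ V := by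
  obtain ⟨_, ⟨F, hF, rfl⟩, rfl⟩ := hV
  have := hF
  refine ⟨(s56gdi_closure F).sup a₀, s56gd_Fld.le_sup_right _ _, ?_⟩
  rw [s56gdi_Q_ker]
  apply Subgroup.comap_mono
  exact IntermediateField.fixingSubgroup_antitone
    ((s56gdi_le_closure F).trans (s56gd_Fld.le_sup_left _ _))

variable (p : ℕ) [Fact p.Prime] (U : Subgroup (primeLocalGaloisGroup q))

/-- **(K3)** for `(PadicAlgCl q)ˣ` over an open subgroup `U` of `G_q`. -/
theorem s56eh_K3 (hU : ∃ W₀ ∈ (tl_levelsLoc q).levels, W₀ ≤ U) :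
    s56ecs_K3 ((tl_levelsLoc q).comap U.subtype) p (tl_locUnits q) := by
  intro e heZ heL ⟨c, hcL, hc⟩
  obtain ⟨W₀, hW₀, hW₀U⟩ := hU
  have hsm := s56eh_isSmooth_comap (tl_levelsLoc q) (tl_locUnits q) (tl_isSmooth_locUnits q) U
  have hW₀' : W₀.comap U.subtype ∈ ((tl_levelsLoc q).comap U.subtype).levels := ⟨W₀, hW₀, rfl⟩
  obtain ⟨V₁, hV₁, hV₁W, -, he⟩ := s56eh_exists_lvInv3 hsm heL hW₀'
  obtain ⟨V₂, hV₂, hV₂V₁, -, hcinv⟩ := hcL.exists_lvInv2 hsm hV₁
  obtain ⟨V, hV, rfl⟩ := hV₂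
  obtain ⟨V', hV', hV'le⟩ := (tl_levelsLoc q).directed V hV W₀ hW₀
  obtain ⟨a, -, ha⟩ := s56eh_exists_fld_le q s56gdi_bot hV'
  have hkU : (s56gdi_Q q a).q.ker ≤ U := ha.trans ((hV'le.trans inf_le_right).trans hW₀U)
  have hker : (s56eh_subQuot (s56gdi_Q q a) U hkU).q.ker ≤ V.comap U.subtype := by
    rw [s56eh_subQuot_ker]
    exact Subgroup.comap_mono (ha.trans (hV'le.trans inf_le_left))
  obtain ⟨e', he'⟩ := s56eh_exists_pull3 (s56eh_subQuot (s56gdi_Q q a) U hkU)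
    ((he.mono hV₂V₁).mono hker)
  obtain ⟨c', hc'⟩ := (s56eh_subQuot (s56gdi_Q q a) U hkU).exists_pull2 (hcinv.mono hker)
  have he'Z : s56ecs_IsZ3 e' :=
    s56eh_isZ3_of_pull3 (s56eh_subQuot (s56gdi_Q q a) U hkU) (by rw [he']; exact heZ)
  have hdc : s56ecs_d2 _ _ c' = p • e' := by
    apply s56eh_pull3_injective (s56eh_subQuot (s56gdi_Q q a) U hkU)
    rw [s56eh_pull3_d2, hc', hc, s56eh_pull3_nsmul, he']
  -- the finite-level vanishing
  obtain ⟨w', hw'⟩ := s56eh_H3_vanish_layer (ils_Pq p q a.L) (U.map (s56gdi_Q q a).q) e'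
    (fun g h j l => he'Z g h j l) 1 c' (by rw [pow_one]; exact hdc.symm)
  refine ⟨(s56eh_subQuot (s56gdi_Q q a) U hkU).mor.pull2 w',
    (s56eh_subQuot (s56gdi_Q q a) U hkU).mor.isLC2_pull2 (LevelSys.isLC2_trivial w'), ?_⟩
  rw [← s56eh_pull3_d2, ← he']
  congr 1
  exact hw'.symm

end loc

end

end Fermat.Agent.S56
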