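/-
S56 [GW-EC] sub-cell [EC-H3-loc], Part E (helper15; prefix `s56eh_`).

(K2) for the units `tl_locUnits q` over an open subgroup `U ≤ G_q`: `lvH2 (L_U) (tl_locUnits q)` is
`p`-divisible.  Every class is inflated from a finite layer `H = U.map (G_q → D_q(a))`; its
`p`-primary part is the restriction of a `p`-primary class of `D_q(a)` (`rc_pcm_exists_res`), whose
inflation to `G_q` is `p`-divisible (`s56eh_top_div`).
-/
import Fermat.Agent.S56.GW.EC.H3Loc.K3
import Fermat.Agent.S55.Level.ShaFinite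

set_option autoImplicit false

open CategoryTheory groupCohomology ExtCitation

namespace Fermat.Agent.S56

open Fermat.Agent.S55

noncomputable section

section general

variable {G : Type*} [Group G] (L : LevelSys G) (X : Type*) [AddCommGroup X]
  [DistribMulAction G X]

/-- (K2) is the `p`-divisibility of `lvH2`. -/
lemma s56eh_K2_of_div (p : ℕ) (h : ∀ x : lvH2 L X, ∃ x' : lvH2 L X, x = p • x') :
    s56ecs_K2 L p X := by
  intro z hz hzL
  obtain ⟨x', hx'⟩ := h (lvH2mk L X ⟨z, hz, hzL⟩)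
  obtain ⟨c', rfl⟩ := lvH2mk_surjective x'
  rw [← map_nsmul, lvH2mk_eq_iff] at hx'
  obtain ⟨b, hb, hbc⟩ := hx'
  refine ⟨(c' : G × G → X), b, c'.2.1, c'.2.2, hb, ?_⟩
  have h1 : ((p • c' : lvZ2 L X) : G × G → X) = p • (c' : G × G → X) := by
    simp
  rw [h1] at hbc
  rw [hbc]
  simp

/-- Divisibility by a prime of the image of a torsion element follows from the divisibility of the
images of the `p`-primary elements. -/
lemma s56eh_div_of_primary {A B : Type*} [AddCommGroup A] [AddCommGroup B] (p : ℕ)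
    [hp : Fact p.Prime] (f : B →+ A) (y : B) (n : ℕ) (hn : 0 < n) (hny : n • y = 0)
    (h : ∀ y₁ : B, (∃ k : ℕ, p ^ k • y₁ = 0) → ∃ x₁ : A, f y₁ = p • x₁) :
    ∃ x' : A, f y = p • x' := by
  have hpp : p.Prime := hp.out
  set k := n.factorization p with hk
  set m := ordCompl[p] n with hm
  have hnm : p ^ k * m = n := Nat.ordProj_mul_ordCompl_eq_self n p
  have hcop : Nat.Coprime p m := Nat.coprime_ordCompl hpp hn.ne'
  obtain ⟨x₁, hx₁⟩ := h (m • y) ⟨k, by rw [← mul_smul, hnm, hny]⟩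
  rw [map_nsmul] at hx₁
  -- Bezout
  have hb : (p : ℤ) * Nat.gcdA p m + (m : ℤ) * Nat.gcdB p m = 1 := by
    have := Nat.gcd_eq_gcd_ab p m
    rw [hcop] at this
    exact_mod_cast this.symm
  refine ⟨Nat.gcdA p m • f y + Nat.gcdB p m • x₁, ?_⟩
  have h2 : ((p : ℤ) * Nat.gcdA p m) • f y = p • (Nat.gcdA p m • f y) := by
    rw [mul_smul, natCast_zsmul]
  have h3 : ((m : ℤ) * Nat.gcdB p m) • f y = p • (Nat.gcdB p m • x₁) := by
    rw [mul_comm, mul_smul, natCast_zsmul, hx₁, smul_comm]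
  calc f y = ((p : ℤ) * Nat.gcdA p m + (m : ℤ) * Nat.gcdB p m) • f y := by rw [hb, one_smul]
    _ = p • (Nat.gcdA p m • f y + Nat.gcdB p m • x₁) := by rw [add_smul, h2, h3, smul_add]

end general

section loc

variable (q : Nat.Primes) (p : ℕ) [Fact p.Prime] (U : Subgroup (primeLocalGaloisGroup q))

/-- The comparison of the level cohomology of a layer `H ≤ D_q(a)` with Mathlib's. -/
def s56eh_brdH (a : s56gd_Fld) (H : Subgroup ↥(s56gdi_D q a)) :
    lvH2 (LevelSys.trivial ↥H) (tl_Act (il_Xq q a.L)) ≃+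
      groupCohomology (tt_res H (il_Xq q a.L)) 2 :=
  lvH2Equiv (Rep.res H.subtype (il_Xq q a.L)) (s56gdi_e q a) (fun d y => s56gdi_he q a d y)

/-- restriction in level cohomology and in Mathlib's group cohomology. -/
lemma s56eh_brdH_res (a : s56gd_Fld) (H : Subgroup ↥(s56gdi_D q a))
    (y : lvH2 (LevelSys.trivial ↥(s56gdi_D q a)) (tl_Act (il_Xq q a.L))) :
    s56eh_brdH q a H ((lvResMor (tl_Act (il_Xq q a.L)) H).H2 y) =
      (tt_resMap H (il_Xq q a.L) 2).hom (s56gdi_brd q a y) :=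
  lvH2Equiv_res (il_Xq q a.L) (s56gdi_e q a) (s56gdi_he q a) H y

/-- inflation from the layer `H = U.map (G_q → D_q(a))` to `U` after restriction to `H` is
restriction to `U` after inflation to `G_q`. -/
lemma s56eh_infl_res (a : s56gd_Fld) (hkU : (s56gdi_Q q a).q.ker ≤ U)
    (y : lvH2 (LevelSys.trivial ↥(s56gdi_D q a)) (tl_Act (il_Xq q a.L))) :
    (s56eh_subQuot (s56gdi_Q q a) U hkU).mor.H2
        ((lvResMor (tl_Act (il_Xq q a.L)) (U.map (s56gdi_Q q a).q)).H2 y) =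
      (s56eh_resMor (tl_levelsLoc q) (tl_locUnits q) U).H2 ((s56gdi_Q q a).mor.H2 y) := by
  obtain ⟨c, rfl⟩ := lvH2mk_surjective y
  rw [LvMor.H2_mk, LvMor.H2_mk, LvMor.H2_mk, LvMor.H2_mk]
  congr 1

/-- **`p`-divisibility of `H²(U, (PadicAlgCl q)ˣ)`** for an open subgroup `U` of `G_q`. -/
theorem s56eh_div (hU : ∃ W₀ ∈ (tl_levelsLoc q).levels, W₀ ≤ U)
    (x : lvH2 ((tl_levelsLoc q).comap U.subtype) (tl_locUnits q)) :
    ∃ x' : lvH2 ((tl_levelsLoc q).comap U.subtype) (tl_locUnits q), x = p • x' := by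
  obtain ⟨W₀, hW₀, hW₀U⟩ := hU
  have hsm := s56eh_isSmooth_comap (tl_levelsLoc q) (tl_locUnits q) (tl_isSmooth_locUnits q) U
  have hW₀' : W₀.comap U.subtype ∈ ((tl_levelsLoc q).comap U.subtype).levels := ⟨W₀, hW₀, rfl⟩
  obtain ⟨V₂, hV₂, -, -, H⟩ := lvH2_exists_level hsm x hW₀'
  obtain ⟨V, hV, rfl⟩ := hV₂
  obtain ⟨V', hV', hV'le⟩ := (tl_levelsLoc q).directed V hV W₀ hW₀
  obtain ⟨a, -, ha⟩ := s56eh_exists_fld_le q s56gdi_bot hV'
  have hkU : (s56gdi_Q q a).q.ker ≤ U := ha.trans ((hV'le.trans inf_le_right).trans hW₀U)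
  have hker : (s56eh_subQuot (s56gdi_Q q a) U hkU).q.ker ≤ V.comap U.subtype := by
    rw [s56eh_subQuot_ker]
    exact Subgroup.comap_mono (ha.trans (hV'le.trans inf_le_left))
  obtain ⟨y, rfl⟩ := H (s56eh_subQuot (s56gdi_Q q a) U hkU) hker
  -- torsion
  have hn : Nat.card ↥(U.map (s56gdi_Q q a).q) • y = 0 := by
    apply (s56eh_brdH q a (U.map (s56gdi_Q q a).q)).injective
    rw [map_nsmul, map_zero]
    exact h2_card_smul_eq_zero _ _
  refine s56eh_div_of_primary p (s56eh_subQuot (s56gdi_Q q a) U hkU).mor.H2 y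
    (Nat.card ↥(U.map (s56gdi_Q q a).q)) Nat.card_pos hn ?_
  rintro y₁ ⟨k, hk⟩
  -- the `p`-primary class `y₁` of the layer is restricted from `D_q(a)`
  have hprim : tt_IsPPrimary p (s56eh_brdH q a (U.map (s56gdi_Q q a).q) y₁) :=
    ⟨k, by rw [← map_nsmul, hk, map_zero]⟩
  obtain ⟨z₀, hz₀, hres⟩ := rc_pcm_exists_res (ils_Pq p q a.L) (U.map (s56gdi_Q q a).q) _ hprim
  obtain ⟨x₁, hx₁⟩ := s56eh_top_div p q (s56gdi_infl q a z₀) (tt_isPPrimary_map _ hz₀)
  have hy₁ : y₁ = (lvResMor (tl_Act (il_Xq q a.L)) (U.map (s56gdi_Q q a).q)).H2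
      ((s56gdi_brd q a).symm z₀) := by
    apply (s56eh_brdH q a (U.map (s56gdi_Q q a).q)).injective
    rw [s56eh_brdH_res, AddEquiv.apply_symm_apply, hres]
  refine ⟨(s56eh_resMor (tl_levelsLoc q) (tl_locUnits q) U).H2 x₁, ?_⟩
  rw [hy₁, s56eh_infl_res, ← s56gdi_infl_apply, hx₁, map_nsmul]

/-- **(K2)** for `(PadicAlgCl q)ˣ` over an open subgroup `U` of `G_q`. -/
theorem s56eh_K2 (hU : ∃ W₀ ∈ (tl_levelsLoc q).levels, W₀ ≤ U) :
    s56ecs_K2 ((tl_levelsLoc q).comap U.subtype) p (tl_locUnits q) :=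
  s56eh_K2_of_div _ _ p (s56eh_div q p U hU)

end loc

end

end Fermat.Agent.S56
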