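/-
S56 [GW-EC] sub-cell [EC-H3-loc], Part F (helper15; prefix `s56eh_`).

**Vanishing of `H³(G_q, X)`** for the finite smooth `p`-primary `G_q`-modules `X`, in the level
formalism (`s56ecs_H3V`), hence right-exactness of `lvH2` over `G_q`:

* Kummer sequence `0 → Ω[p] → Ω → Ω → 0` over an open subgroup `U ≤ G_q` + (K2) + (K3)
  ⟹ `s56ecs_H3V L_U Ω[p]` (`s56ecs_H3V_of_kummer`);
* if `U / W` is a `p`-group and `W` fixes `Ω[p]`, then `U` acts trivially on `Ω[p]`, which has
  order `p`, so `H3V L_U Z` for every trivial module `Z` of order `p`: `s56ecs_TrivHyp`;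
* `s56ecs_main` ⟹ `s56eh_H3V`, `s56eh_H2_surjective`.
-/
import Fermat.Agent.S56.GW.EC.H3Loc.K2
import Fermat.Agent.S56.GW.EC.Syl.Main

set_option autoImplicit false

open CategoryTheory groupCohomology ExtCitation

namespace Fermat.Agent.S56

open Fermat.Agent.S55

universe u

noncomputable section

/-! ### Torsion and the Kummer sequence -/

section tor

variable (G : Type*) [Monoid G] (X : Type*) [AddCommGroup X] (p : ℕ)

/-- The `p`-torsion of a module. -/
def s56eh_tor : AddSubgroup X where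
  carrier := {x | p • x = 0}
  zero_mem' := smul_zero p
  add_mem' := fun {a b} ha hb => by
    show p • (a + b) = 0
    rw [smul_add, show p • a = 0 from ha, show p • b = 0 from hb, add_zero]
  neg_mem' := fun {a} ha => by
    show p • (-a) = 0
    rw [smul_neg, show p • a = 0 from ha, neg_zero]

theorem s56eh_mem_tor {x : X} : x ∈ s56eh_tor X p ↔ p • x = 0 := Iff.rfl

variable [DistribMulAction G X]

instance s56eh_tor.instAction : DistribMulAction G ↥(s56eh_tor X p) where
  smul g x := ⟨g • (x : X), by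
    show p • (g • (x : X)) = 0
    rw [smul_comm, show p • (x : X) = 0 from x.2, smul_zero]⟩
  one_smul x := Subtype.ext (one_smul G (x : X))
  mul_smul g h x := Subtype.ext (mul_smul g h (x : X))
  smul_zero g := Subtype.ext (smul_zero g)
  smul_add g x y := Subtype.ext (smul_add g (x : X) (y : X))

@[simp] theorem s56eh_tor.coe_smul (g : G) (x : ↥(s56eh_tor X p)) :
    ((g • x : ↥(s56eh_tor X p)) : X) = g • (x : X) := rfl

end tor

/-- The Kummer sequence `0 → X[p] → X → X → 0` of a `p`-divisible module. -/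
def s56eh_kummer (G : Type*) [Group G] (X : Type*) [AddCommGroup X] [DistribMulAction G X] (p : ℕ)
    (hdiv : ∀ x : X, ∃ y : X, p • y = x) : LvSES G ↥(s56eh_tor X p) X X where
  i := (s56eh_tor X p).subtype
  π := nsmulAddMonoidHom p
  i_equiv := fun _ _ => rfl
  π_equiv := fun g b => by
    show p • (g • b) = g • (p • b)
    rw [smul_comm]
  i_inj := Subtype.coe_injective
  π_surj := hdiv
  exact := fun b => ⟨fun h => ⟨⟨b, h⟩, rfl⟩, fun ⟨a, ha⟩ => ha ▸ a.2⟩

@[simp] theorem s56eh_kummer_π (G : Type*) [Group G] (X : Type*) [AddCommGroup X]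
    [DistribMulAction G X] (p : ℕ) (hdiv : ∀ x : X, ∃ y : X, p • y = x) (x : X) :
    (s56eh_kummer G X p hdiv).π x = p • x := rfl

/-! ### A `p`-power automorphism of a group of order `p` is trivial -/

section fix

variable {G : Type*} [Group G] {M : Type*} [AddCommGroup M] [DistribMulAction G M]

/-- If `g ^ p ^ k` acts trivially on a module of prime order `p`, so does `g`. -/
lemma s56eh_fix_of_pow (p : ℕ) [hp : Fact p.Prime] (hM : Nat.card M = p) (g : G) (k : ℕ)
    (hg : ∀ x : M, (g ^ p ^ k) • x = x) (x : M) : g • x = x := by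
  by_cases hx : x = 0
  · rw [hx, smul_zero]
  have hpx : ∀ y : M, p • y = 0 := fun y => by
    have : Finite M := Nat.finite_of_card_ne_zero (by rw [hM]; exact hp.out.ne_zero)
    rw [← hM]
    exact card_nsmul_eq_zero'
  have htop : AddSubgroup.zmultiples x = ⊤ := zmultiples_eq_top_of_prime_card hM hx
  have hmem : g • x ∈ AddSubgroup.zmultiples x := by rw [htop]; exact AddSubgroup.mem_top _
  obtain ⟨a, ha⟩ := AddSubgroup.mem_zmultiples_iff.1 hmem
  -- `g ^ n • x = a ^ n • x`
  have hpow : ∀ n : ℕ, (g ^ n) • x = (a ^ n) • x := by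
    intro n
    induction n with
    | zero => simp
    | succ n ih =>
      rw [pow_succ, mul_smul, ← ha, smul_comm, ih, ← mul_smul, pow_succ, mul_comm]
  have h1 : (a ^ p ^ k - 1) • x = 0 := by
    rw [sub_smul, one_smul, ← hpow, hg, sub_self]
  have hord : addOrderOf x = p := addOrderOf_eq_prime (hpx x) hx
  have h2 : (p : ℤ) ∣ a ^ p ^ k - 1 := by
    have := addOrderOf_dvd_iff_zsmul_eq_zero.2 h1
    rwa [hord] at this
  have h3 : ((a : ZMod p)) = 1 := by
    have := (ZMod.intCast_zmod_eq_zero_iff_dvd (a ^ p ^ k - 1) p).2 h2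
    rw [Int.cast_sub, Int.cast_pow, Int.cast_one, ZMod.pow_card_pow, sub_eq_zero] at this
    exact this
  have h4 : (p : ℤ) ∣ a - 1 := by
    rw [← ZMod.intCast_zmod_eq_zero_iff_dvd, Int.cast_sub, Int.cast_one, h3, sub_self]
  obtain ⟨b, hb⟩ := h4
  have h5 : (a - 1) • x = 0 := by
    rw [hb, mul_comm, mul_smul, natCast_zsmul, hpx, smul_zero]
  rw [← ha]
  rw [sub_smul, one_smul, sub_eq_zero] at h5
  exact h5

end fix

/-! ### The local statements -/

section loc

variable (p : ℕ) [hp : Fact p.Prime] (q : Nat.Primes)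

/-- `μ_p = Ω[p]` has exactly `p` elements. -/
theorem s56eh_mu_card : Nat.card ↥(s56eh_tor (tl_locUnits q) p) = p := by
  have : Fact (q : ℕ).Prime := ⟨q.2⟩
  have : NeZero p := ⟨(Fact.out : p.Prime).ne_zero⟩
  have : NeZero (p : PadicAlgCl (q : ℕ)) := ⟨by exact_mod_cast (Fact.out : p.Prime).ne_zero⟩
  have h := HasEnoughRootsOfUnity.natCard_rootsOfUnity (PadicAlgCl (q : ℕ)) p
  refine (Nat.card_congr ?_).trans h
  exact
    { toFun := fun z => ⟨tl_locUnits.val q (z : tl_locUnits q), by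
        rw [mem_rootsOfUnity]
        exact z.2⟩
      invFun := fun u => ⟨tl_locUnits.of q (u : (PadicAlgCl (q : ℕ))ˣ), by
        have := (mem_rootsOfUnity p (u : (PadicAlgCl (q : ℕ))ˣ)).1 u.2
        exact this⟩
      left_inv := fun z => rfl
      right_inv := fun u => rfl }

theorem s56eh_exists_W1 : ∃ W₁ ∈ (tl_levelsLoc q).levels,
    ∀ w ∈ W₁, ∀ x : tl_locUnits q, p • x = 0 → w • x = x := by
  obtain ⟨U₀, hU₀⟩ := (tl_levelsLoc q).nonempty
  have hfin : ({x : tl_locUnits q | p • x = 0} : Set (tl_locUnits q)).Finite := by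
    have : Finite ↥(s56eh_tor (tl_locUnits q) p) :=
      Nat.finite_of_card_ne_zero (by rw [s56eh_mu_card]; exact hp.out.ne_zero)
    exact Set.toFinite (s56eh_tor (tl_locUnits q) p : Set (tl_locUnits q))
  obtain ⟨W, hW, -, -, hfix⟩ := (tl_isSmooth_locUnits q).exists_level (tl_levelsLoc q) hfin hU₀
  exact ⟨W, hW, fun w hw x hx => hfix w hw x hx⟩

/-- A level of `G_q` fixing `μ_p` (the level of `ℚ_q(μ_p)`). -/
def s56eh_W1 : Subgroup (primeLocalGaloisGroup q) := Classical.choose (s56eh_exists_W1 p q)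

theorem s56eh_W1_mem : s56eh_W1 p q ∈ (tl_levelsLoc q).levels :=
  (Classical.choose_spec (s56eh_exists_W1 p q)).1

theorem s56eh_W1_fix (w : primeLocalGaloisGroup q) (hw : w ∈ s56eh_W1 p q) (x : tl_locUnits q)
    (hx : p • x = 0) : w • x = x :=
  (Classical.choose_spec (s56eh_exists_W1 p q)).2 w hw x hx

variable (U : Subgroup (primeLocalGaloisGroup q))

/-- **`H³(U, μ_p) = 0`** for every open subgroup `U` of `G_q`. -/
theorem s56eh_H3V_mu (hU : ∃ W₀ ∈ (tl_levelsLoc q).levels, W₀ ≤ U) :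
    s56ecs_H3V ((tl_levelsLoc q).comap U.subtype) ↥(s56eh_tor (tl_locUnits q) p) :=
  s56ecs_H3V_of_kummer _ p
    (s56eh_kummer ↥U (tl_locUnits q) p (tl_locUnits_divisible q p hp.out.ne_zero))
    (fun _ => rfl)
    (s56eh_isSmooth_comap (tl_levelsLoc q) (tl_locUnits q) (tl_isSmooth_locUnits q) U)
    (s56eh_K2 q p U hU) (s56eh_K3 q p U hU)

/-- **The hypothesis of [EC-SYL]** holds for the local Galois groups. -/
theorem s56eh_trivHyp : s56ecs_TrivHyp.{u} (tl_levelsLoc q) p (s56eh_W1 p q) := by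
  intro U hU Z _ _ htriv hcard
  obtain ⟨W, hW, -, hWW₁, hWU, hpow⟩ := hU
  have hμ := s56eh_H3V_mu p q U ⟨W, hW, hWU⟩
  -- `U` acts trivially on `μ_p`
  have hfix : ∀ (u : U) (ζ : ↥(s56eh_tor (tl_locUnits q) p)), u • ζ = ζ := by
    intro u ζ
    obtain ⟨k, hk⟩ := hpow u u.2
    refine s56eh_fix_of_pow p (s56eh_mu_card p q) u k (fun x => ?_) ζ
    apply Subtype.ext
    show ((u ^ p ^ k : U) : primeLocalGaloisGroup q) • (x : tl_locUnits q) = x
    refine s56eh_W1_fix p q _ (hWW₁ ?_) x x.2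
    rw [Subgroup.coe_pow]
    exact hk
  let e : Z ≃+ ↥(s56eh_tor (tl_locUnits q) p) :=
    addEquivOfPrimeCardEq hcard (s56eh_mu_card p q)
  exact s56ecs_H3V_of_equiv e (fun g a => by rw [htriv, hfix]) hμ

/-- **`H³(G_q, X) = 0`** (level formalism) for every finite smooth `p`-primary `G_q`-module. -/
theorem s56eh_H3V (X : Type u) [AddCommGroup X] [DistribMulAction (primeLocalGaloisGroup q) X]
    [Finite X] (hX : (tl_levelsLoc q).IsSmooth X) (hpX : ∃ k : ℕ, ∀ x : X, p ^ k • x = 0) :
    s56ecs_H3V (tl_levelsLoc q) X :=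
  s56ecs_main (tl_levelsLoc q) p (s56eh_W1 p q) (s56eh_W1_mem p q) (s56eh_trivHyp p q) X hX hpX

/-- **Right-exactness of `lvH2` over `G_q`** on short exact sequences `0 → A → B → C → 0` with `A`
finite `p`-primary and `B` smooth. -/
theorem s56eh_H2_surjective {A : Type u} {B C : Type*} [AddCommGroup A]
    [DistribMulAction (primeLocalGaloisGroup q) A] [Finite A]
    [AddCommGroup B] [DistribMulAction (primeLocalGaloisGroup q) B]
    [AddCommGroup C] [DistribMulAction (primeLocalGaloisGroup q) C]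
    (E : LvSES (primeLocalGaloisGroup q) A B C) (hB : (tl_levelsLoc q).IsSmooth B)
    (hpA : ∃ k : ℕ, ∀ a : A, p ^ k • a = 0) : Function.Surjective (E.mπ (tl_levelsLoc q)).H2 :=
  s56ecs_main_H2_surjective (tl_levelsLoc q) p (s56eh_W1 p q) (s56eh_W1_mem p q)
    (s56eh_trivHyp p q) E hB hpA

end loc

end

end Fermat.Agent.S56
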