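/-
S56 [GW-EC] sub-cell [EC-H3-loc], Part G (helper15; prefix `s56eh_`).

The seams of the local line closed by [EC-H3-loc]: `s56elt_Triv_stmt`, `s56elt_H3_stmt`,
`s56l_RE_stmt`, and the local Euler characteristic from the two remaining base-case seams.
-/
import Fermat.Agent.S56.GW.EC.H3Loc.Main
import Fermat.Agent.S56.GW.EC.LecTop.Final

set_option autoImplicit false

namespace Fermat.Agent.S56

open Fermat.Agent.S55

/-- **[EC-H3-loc]** in the form consumed by `s56ecs_main`. -/
theorem s56eh_triv_stmt : s56elt_Triv_stmt :=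
  fun p _ q => ⟨s56eh_W1 p q, s56eh_W1_mem p q, s56eh_trivHyp p q⟩

/-- **[EC-H3-loc]**: vanishing of `H³(G_q, X)` for the finite smooth `p`-torsion modules. -/
theorem s56eh_H3_stmt : s56elt_H3_stmt := s56elt_H3_of_triv s56eh_triv_stmt

/-- **[LEC-RE]**: right-exactness of `lvH2` over `G_q`. -/
theorem s56eh_RE_stmt : s56l_RE_stmt := s56elt_RE_of_H3 s56eh_H3_stmt

/-- The local Euler characteristic seam from the two remaining base-case seams. -/
theorem s56eh_LEC_of (hB1 : s56l_BaseH1_stmt) (hBR : s56l_BR_stmt) : s56gw_LEC_stmt :=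
  s56elt_final s56eh_triv_stmt hB1 hBR

end Fermat.Agent.S56
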