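/-
S56 [GW-EC] sub-cell [EC-H3-loc], Part C (helper15; prefix `s56eh_`).

General level formalism in degree 3: pull-back of 3-cochains along an `LvMor`, invariant
3-cochains and their descent to a finite quotient (`LvQuot`), and the restriction of an `LvQuot`
to a subgroup containing its kernel.
-/
import Fermat.Agent.S56.GW.EC.Syl.Basic
import Fermat.Agent.S55.Level.Finite

set_option autoImplicit false

namespace Fermat.Agent.S56

open Fermat.Agent.S55 groupCohomology

section pull3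

variable {G : Type*} [Group G] {H : Type*} [Group H]
  {L : LevelSys G} {X : Type*} [AddCommGroup X] [DistribMulAction G X]
  {LH : LevelSys H} {Y : Type*} [AddCommGroup Y] [DistribMulAction H Y] (m : LvMor L X LH Y)

/-- Pull back 3-cochains. -/
def s56eh_pull3 : (G × G × G → X) →+ (H × H × H → Y) where
  toFun c t := m.φ (c (m.f t.1, m.f t.2.1, m.f t.2.2))
  map_zero' := by funext t; simp
  map_add' c c' := by funext t; simp

@[simp] lemma s56eh_pull3_apply (c : G × G × G → X) (h h' h'' : H) :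
    s56eh_pull3 m c (h, h', h'') = m.φ (c (m.f h, m.f h', m.f h'')) := rfl

lemma s56eh_pull3_d2 (c : G × G → X) :
    s56eh_pull3 m (s56ecs_d2 G X c) = s56ecs_d2 H Y (m.pull2 c) := by
  funext ⟨h, h', h''⟩
  simp only [s56eh_pull3_apply, s56ecs_d2_apply, map_sub, map_add, m.equivariant,
    LvMor.pull2_apply, map_mul]

lemma s56eh_isLC3_pull3 {c : G × G × G → X} (hc : s56ecs_IsLC3 L c) :
    s56ecs_IsLC3 LH (s56eh_pull3 m c) := by
  obtain ⟨U, hU, h⟩ := hc
  obtain ⟨V, hV, hVU⟩ := m.levels U hU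
  refine ⟨V, hV, fun g g' g'' s hs s' hs' s'' hs'' => ?_⟩
  simp only [s56eh_pull3_apply, map_mul]
  rw [h (m.f g) (m.f g') (m.f g'') (m.f s) (hVU hs) (m.f s') (hVU hs') (m.f s'') (hVU hs'')]

lemma s56eh_isZ3_pull3 {c : G × G × G → X} (hc : s56ecs_IsZ3 c) :
    s56ecs_IsZ3 (s56eh_pull3 m c) := by
  intro g h j k
  have := congrArg m.φ (hc (m.f g) (m.f h) (m.f j) (m.f k))
  simp only [map_add, map_sub, map_zero, m.equivariant] at this
  simp only [s56eh_pull3_apply, map_mul]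
  exact this

lemma s56eh_pull3_nsmul (n : ℕ) (c : G × G × G → X) :
    s56eh_pull3 m (n • c) = n • s56eh_pull3 m c := map_nsmul _ _ _

end pull3

section inv3

variable {G : Type*} [Group G] {X : Type*} [AddCommGroup X] [DistribMulAction G X]

/-- A 3-cochain is `W`-invariant: constant on right `W`-cosets in the three variables, with
`W`-fixed values. -/
def s56eh_lvInv3 (W : Subgroup G) (c : G × G × G → X) : Prop :=
  (∀ g g' g'' : G, ∀ s ∈ W, ∀ s' ∈ W, ∀ s'' ∈ W,
      c (g * s, g' * s', g'' * s'') = c (g, g', g'')) ∧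
    (∀ t : G × G × G, ∀ s ∈ W, s • c t = c t)

lemma s56eh_lvInv3.mono {W W' : Subgroup G} {c : G × G × G → X} (hc : s56eh_lvInv3 W c)
    (h : W' ≤ W) : s56eh_lvInv3 W' c :=
  ⟨fun g g' g'' s hs s' hs' s'' hs'' => hc.1 g g' g'' s (h hs) s' (h hs') s'' (h hs''),
    fun t s hs => hc.2 t s (h hs)⟩

variable {L : LevelSys G}

/-- A level-constant 3-cochain with values in a smooth module is invariant under a normal level,
which can be chosen inside a given level. -/
lemma s56eh_exists_lvInv3 (hX : L.IsSmooth X) {c : G × G × G → X} (hc : s56ecs_IsLC3 L c)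
    {U₀ : Subgroup G} (hU₀ : U₀ ∈ L.levels) :
    ∃ W ∈ L.levels, W ≤ U₀ ∧ W.Normal ∧ s56eh_lvInv3 W c := by
  obtain ⟨U, hU, h⟩ := hc
  obtain ⟨V, hV, hVUU₀⟩ := L.directed U hU U₀ hU₀
  obtain ⟨W, hW, hWV, hWn, hfix⟩ :=
    hX.exists_level L (s56ecs_IsLC3.finite_range ⟨U, hU, h⟩) hV
  exact ⟨W, hW, hWV.trans (hVUU₀.trans inf_le_right), hWn,
    fun g g' g'' s hs s' hs' s'' hs'' =>
      h g g' g'' s (hVUU₀ (hWV hs)).1 s' (hVUU₀ (hWV hs')).1 s'' (hVUU₀ (hWV hs'')).1,
    fun t s hs => hfix s hs (c t) ⟨t, rfl⟩⟩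

end inv3

section quot

variable {G : Type*} [Group G] {L : LevelSys G} {X : Type*} [AddCommGroup X]
  [DistribMulAction G X] {Γ : Type*} [Group Γ] [Finite Γ] {X' : Type*} [AddCommGroup X']
  [DistribMulAction Γ X'] (Q : LvQuot L X Γ X')

lemma s56eh_pull3_injective : Function.Injective (s56eh_pull3 Q.mor) := by
  intro c c' h
  funext ⟨γ, γ', γ''⟩
  obtain ⟨g, rfl⟩ := Q.q_surj γ
  obtain ⟨g', rfl⟩ := Q.q_surj γ'
  obtain ⟨g'', rfl⟩ := Q.q_surj γ''
  exact Q.φ_inj (congrFun h (g, g', g''))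

lemma s56eh_isZ3_of_pull3 {c : Γ × Γ × Γ → X'} (hc : s56ecs_IsZ3 (s56eh_pull3 Q.mor c)) :
    s56ecs_IsZ3 c := by
  intro γ γ' γ'' γ'''
  obtain ⟨g, rfl⟩ := Q.q_surj γ
  obtain ⟨g', rfl⟩ := Q.q_surj γ'
  obtain ⟨g'', rfl⟩ := Q.q_surj γ''
  obtain ⟨g''', rfl⟩ := Q.q_surj γ'''
  apply Q.φ_inj
  have := hc g g' g'' g'''
  simp only [s56eh_pull3_apply, LvQuot.mor_f, LvQuot.mor_φ, map_mul, ← Q.equivariant,
    ← map_add, ← map_sub] at this
  rw [map_zero]
  exact this

/-- Descent of invariant 3-cochains. -/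
lemma s56eh_exists_pull3 {c : G × G × G → X} (hc : s56eh_lvInv3 Q.q.ker c) :
    ∃ c' : Γ × Γ × Γ → X', s56eh_pull3 Q.mor c' = c := by
  have hex : ∀ t : Γ × Γ × Γ, ∃ x' : X',
      Q.φ x' = c (Function.surjInv Q.q_surj t.1, Function.surjInv Q.q_surj t.2.1,
        Function.surjInv Q.q_surj t.2.2) :=
    fun t => Q.range_eq _ (fun u hu => hc.2 _ u hu)
  choose c' hc' using hex
  refine ⟨c', ?_⟩
  funext ⟨g, g', g''⟩
  rw [s56eh_pull3_apply, LvQuot.mor_φ, LvQuot.mor_f, hc']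
  have hk : ∀ g : G, g⁻¹ * Function.surjInv Q.q_surj (Q.q g) ∈ Q.q.ker := by
    intro g
    rw [MonoidHom.mem_ker, map_mul, map_inv, Function.surjInv_eq Q.q_surj, inv_mul_cancel]
  have := hc.1 g g' g'' _ (hk g) _ (hk g') _ (hk g'')
  rwa [mul_inv_cancel_left, mul_inv_cancel_left, mul_inv_cancel_left] at this

end quot

section sub

variable {G : Type*} [Group G] {L : LevelSys G} {X : Type*} [AddCommGroup X]
  [DistribMulAction G X] {Γ : Type*} [Group Γ] {X' : Type*} [AddCommGroup X']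
  [DistribMulAction Γ X']

/-- The restriction of a finite quotient to a subgroup containing its kernel. -/
def s56eh_subQuot (Q : LvQuot L X Γ X') (U : Subgroup G) (hU : Q.q.ker ≤ U) :
    LvQuot (L.comap U.subtype) X ↥(U.map Q.q) X' where
  q := Q.q.subgroupMap U
  q_surj := Q.q.subgroupMap_surjective U
  level := by
    obtain ⟨V, hV, hVq⟩ := Q.level
    refine ⟨V.comap U.subtype, ⟨V, hV, rfl⟩, fun u hu => ?_⟩
    rw [MonoidHom.mem_ker]
    apply Subtype.ext
    show Q.q (u : G) = 1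
    exact MonoidHom.mem_ker.mp (hVq hu)
  φ := Q.φ
  φ_inj := Q.φ_inj
  equivariant := fun u x => Q.equivariant (u : G) x
  range_eq := fun x hx => Q.range_eq x (fun g hg => hx ⟨g, hU hg⟩ (by
    rw [MonoidHom.mem_ker]
    apply Subtype.ext
    show Q.q g = 1
    exact MonoidHom.mem_ker.mp hg))

@[simp] lemma s56eh_subQuot_q_coe (Q : LvQuot L X Γ X') (U : Subgroup G) (hU : Q.q.ker ≤ U)
    (u : U) : (((s56eh_subQuot Q U hU).q u : ↥(U.map Q.q)) : Γ) = Q.q (u : G) := rfl

@[simp] lemma s56eh_subQuot_φ (Q : LvQuot L X Γ X') (U : Subgroup G) (hU : Q.q.ker ≤ U) :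
    (s56eh_subQuot Q U hU).φ = Q.φ := rfl

lemma s56eh_subQuot_ker (Q : LvQuot L X Γ X') (U : Subgroup G) (hU : Q.q.ker ≤ U) :
    (s56eh_subQuot Q U hU).q.ker = Q.q.ker.comap U.subtype := by
  ext u
  rw [MonoidHom.mem_ker, Subgroup.mem_comap, MonoidHom.mem_ker]
  constructor
  · intro h
    have := congrArg Subtype.val h
    exact this
  · intro h
    apply Subtype.ext
    exact h

/-- The restriction morphism to a subgroup. -/
def s56eh_resMor (L : LevelSys G) (X : Type*) [AddCommGroup X] [DistribMulAction G X]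
    (U : Subgroup G) : LvMor L X (L.comap U.subtype) X where
  f := U.subtype
  φ := AddMonoidHom.id X
  equivariant := fun _ _ => rfl
  levels := fun V hV => ⟨V.comap U.subtype, ⟨V, hV, rfl⟩, le_rfl⟩

end sub

end Fermat.Agent.S56
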