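/-
S56, node [GW-EC], cell [EC-H3-loc] (helper2): THE DICTIONARY IN DEGREE 3 between written-out
3-cocycles `G × G × G → A` and Mathlib's `groupCohomology A 3`.  Prefix `s56ehl_`.  Mathlib only.
-/
import Mathlib

set_option autoImplicit false

namespace Fermat.Agent.S56

open CategoryTheory groupCohomology

section general

variable {k : Type} [CommRing k]

/-- in a cochain complex of modules, a cycle has trivial homology class iff it is a boundary -/
theorem s56ehl_homologyπ_eq_zero_iff (K : CochainComplex (ModuleCat.{0} k) ℕ) (n : ℕ)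
    (x : K.cycles (n + 1)) :
    K.homologyπ (n + 1) x = 0 ↔ ∃ y : K.X n, K.toCycles n (n + 1) y = x := by
  have hex : (ShortComplex.mk (K.toCycles n (n + 1)) (K.homologyπ (n + 1))
      (K.toCycles_comp_homologyπ n (n + 1))).Exact :=
    ShortComplex.exact_of_g_is_cokernel _ (K.homologyIsCokernel n (n + 1) (by simp))
  rw [ShortComplex.moduleCat_exact_iff] at hex
  constructor
  · intro h
    exact hex x h
  · rintro ⟨y, rfl⟩
    have := K.toCycles_comp_homologyπ n (n + 1)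
    exact congr($this y)

end general

section dict

variable {k G : Type} [CommRing k] [Group G] (A : Rep.{0} k G)

/-- a written-out 3-cocycle -/
def s56ehl_IsZ3 (f : G × G × G → A.V) : Prop :=
  ∀ g h j l : G,
    A.ρ g (f (h, j, l)) - f (g * h, j, l) + f (g, h * j, l) - f (g, h, j * l) + f (g, h, j) = 0

/-- the written-out coboundary of a 2-cochain -/
def s56ehl_d2 (c : G × G → A.V) : G × G × G → A.V :=
  fun t => A.ρ t.1 (c (t.2.1, t.2.2)) - c (t.1 * t.2.1, t.2.2) + c (t.1, t.2.1 * t.2.2)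
    - c (t.1, t.2.1)

theorem s56ehl_d2_apply (c : G × G → A.V) (g h j : G) :
    s56ehl_d2 A c (g, h, j) = A.ρ g (c (h, j)) - c (g * h, j) + c (g, h * j) - c (g, h) := rfl

/-- 2-cochains as functions on `Fin 2 → G` -/
def s56ehl_c2 (c : G × G → A.V) : (Fin 2 → G) → A.V := fun g => c (g 0, g 1)

/-- 3-cochains as functions on `Fin 3 → G` -/
def s56ehl_c3 (f : G × G × G → A.V) : (Fin 3 → G) → A.V := fun g => f (g 0, g 1, g 2)

/-- the inverse of `s56ehl_c2` -/
def s56ehl_u2 (y : (Fin 2 → G) → A.V) : G × G → A.V := fun q => y ![q.1, q.2]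

theorem s56ehl_c2_u2 (y : (Fin 2 → G) → A.V) : s56ehl_c2 A (s56ehl_u2 A y) = y := by
  funext g
  show y ![g 0, g 1] = y g
  congr 1
  funext i
  fin_cases i <;> rfl

theorem s56ehl_c3_injective : Function.Injective (s56ehl_c3 A) := by
  intro f f' h
  funext ⟨g, h', j⟩
  exact congrFun h ![g, h', j]

theorem s56ehl_d_c2 (c : G × G → A.V) :
    (inhomogeneousCochains.d A 2).hom (s56ehl_c2 A c) = s56ehl_c3 A (s56ehl_d2 A c) := by
  funext g
  rw [inhomogeneousCochains.d_hom_apply, Fin.sum_univ_three]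
  have e1 : ((-1 : k) ^ (((0 : Fin 3) : ℕ) + 1)) = -1 := by norm_num
  have e2 : ((-1 : k) ^ (((1 : Fin 3) : ℕ) + 1)) = 1 := by norm_num
  have e3 : ((-1 : k) ^ (((2 : Fin 3) : ℕ) + 1)) = -1 := by
    show (-1 : k) ^ (2 + 1) = -1
    norm_num
  rw [e1, e2, e3]
  simp only [s56ehl_c2, s56ehl_c3, s56ehl_d2_apply, Fin.contractNth, neg_smul, one_smul]
  simp
  abel

theorem s56ehl_d_c3 (f : G × G × G → A.V) (g : Fin 4 → G) :
    (inhomogeneousCochains.d A 3).hom (s56ehl_c3 A f) g =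
      A.ρ (g 0) (f (g 1, g 2, g 3)) - f (g 0 * g 1, g 2, g 3) + f (g 0, g 1 * g 2, g 3)
        - f (g 0, g 1, g 2 * g 3) + f (g 0, g 1, g 2) := by
  rw [inhomogeneousCochains.d_hom_apply, Fin.sum_univ_four]
  have e1 : ((-1 : k) ^ (((0 : Fin 4) : ℕ) + 1)) = -1 := by norm_num
  have e2 : ((-1 : k) ^ (((1 : Fin 4) : ℕ) + 1)) = 1 := by norm_num
  have e3 : ((-1 : k) ^ (((2 : Fin 4) : ℕ) + 1)) = -1 := by
    show (-1 : k) ^ (2 + 1) = -1
    norm_num
  have e4 : ((-1 : k) ^ (((3 : Fin 4) : ℕ) + 1)) = 1 := by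
    show (-1 : k) ^ (3 + 1) = 1
    norm_num
  rw [e1, e2, e3, e4]
  simp only [s56ehl_c3, Fin.contractNth, neg_smul, one_smul]
  simp
  abel

theorem s56ehl_d_c3_eq_zero {f : G × G × G → A.V} (hf : s56ehl_IsZ3 A f) :
    (inhomogeneousCochains.d A 3).hom (s56ehl_c3 A f) = 0 := by
  funext g
  rw [s56ehl_d_c3]
  exact hf (g 0) (g 1) (g 2) (g 3)

/-- the class of a written-out 3-cocycle -/
noncomputable def s56ehl_cl3 (f : G × G × G → A.V) (hf : s56ehl_IsZ3 A f) : groupCohomology A 3 :=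
  groupCohomology.π A 3 (cocyclesMk (s56ehl_c3 A f) (s56ehl_d_c3_eq_zero A hf))

theorem s56ehl_cl3_eq_zero_iff (f : G × G × G → A.V) (hf : s56ehl_IsZ3 A f) :
    s56ehl_cl3 A f hf = 0 ↔ ∃ c : G × G → A.V, s56ehl_d2 A c = f := by
  rw [s56ehl_cl3]
  erw [s56ehl_homologyπ_eq_zero_iff (inhomogeneousCochains A) 2]
  constructor
  · rintro ⟨y, hy⟩
    refine ⟨s56ehl_u2 A y, ?_⟩
    apply s56ehl_c3_injective A
    rw [← s56ehl_d_c2, s56ehl_c2_u2]
    have h1 := congrArg (iCocycles A 3) hy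
    rw [iCocycles_mk] at h1
    rw [← h1]
    have h2 := (inhomogeneousCochains A).toCycles_i 2 3
    have h3 := congr($h2 y)
    rw [inhomogeneousCochains.d_def] at h3
    exact h3.symm
  · rintro ⟨c, hc⟩
    refine ⟨s56ehl_c2 A c, ?_⟩
    apply (ModuleCat.mono_iff_injective (iCocycles A 3)).1 inferInstance
    rw [iCocycles_mk]
    have h2 := (inhomogeneousCochains A).toCycles_i 2 3
    have h3 := congr($h2 (s56ehl_c2 A c))
    rw [inhomogeneousCochains.d_def] at h3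
    rw [← hc, ← s56ehl_d_c2]
    exact h3

theorem s56ehl_isZ3_nsmul (m : ℕ) {f : G × G × G → A.V} (hf : s56ehl_IsZ3 A f) :
    s56ehl_IsZ3 A (m • f) := by
  intro g h j l
  have := hf g h j l
  simp only [Pi.smul_apply, map_nsmul]
  rw [← smul_sub, ← smul_add, ← smul_sub, ← smul_add, this, smul_zero]

theorem s56ehl_cl3_nsmul (m : ℕ) {f : G × G × G → A.V} (hf : s56ehl_IsZ3 A f) :
    s56ehl_cl3 A (m • f) (s56ehl_isZ3_nsmul A m hf) = m • s56ehl_cl3 A f hf := by
  rw [s56ehl_cl3, s56ehl_cl3, ← map_nsmul]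
  congr 1
  apply (ModuleCat.mono_iff_injective (iCocycles A 3)).1 inferInstance
  rw [map_nsmul, iCocycles_mk, iCocycles_mk]
  rfl

/-- prime-to-`p` vanishing of `H³` in written-out form -/
theorem s56ehl_H3_explicit_prime (p : ℕ)
    (h : ∀ x : groupCohomology A 3, ∃ m : ℕ, ¬ p ∣ m ∧ m • x = 0)
    (f : G × G × G → A.V) (hf : s56ehl_IsZ3 A f) :
    ∃ m : ℕ, ¬ p ∣ m ∧ ∃ c : G × G → A.V, s56ehl_d2 A c = m • f := by
  obtain ⟨m, hm, h0⟩ := h (s56ehl_cl3 A f hf)
  refine ⟨m, hm, ?_⟩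
  rw [← s56ehl_cl3_nsmul] at h0
  exact (s56ehl_cl3_eq_zero_iff A _ _).1 h0

end dict

end Fermat.Agent.S56
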